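import Fermat.Agent.Hecke.QCoeff

/-!
# Eigenforms and characters of the Hecke algebra

The dictionary between normalised weight-two eigenforms on Γ₀(N) and characters of the Hecke
algebra: the elements `T_n` with `a₁(T_n f) = a_n(f)`, and both directions.

Main results: `IsEigenvector.exists_normalizedEigenform` and `eigenCharacter`.
-/

set_option autoImplicit false

noncomputable section

open CongruenceSubgroup ModularFormClass CuspForm

namespace Fermat.Agent.Hecke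

variable {N : ℕ} [NeZero N]

/-- `f` is an eigenvector of the Hecke algebra away from `S` with character `χ`. -/
def IsEigenvector {k : ℤ} {S : Set ℕ} (χ : heckeAlgebra N k S →+* ℂ)
    (f : CuspForm (Gamma0 N) k) : Prop :=
  ∀ t : heckeAlgebra N k S, (t : Module.End ℂ (CuspForm (Gamma0 N) k)) f = χ t • f

/-- Existence of the Hecke operators `T_n`: `a₁(T_n f) = a_n(f)` for all `f`. -/
theorem exists_heckeTn (n : ℕ) : ∃ t : heckeAlgebra N 2 ∅, ∀ f : CuspForm (Gamma0 N) 2,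
    qCoeff ⇑((t : Module.End ℂ (CuspForm (Gamma0 N) 2)) f) 1 = qCoeff ⇑f n := by
  induction n using Nat.strong_induction_on with
  | _ n ih =>
    rcases lt_or_ge n 2 with hn | hn
    · interval_cases n
      · exact ⟨0, fun f => by simp [qCoeff_zero_index]⟩
      · exact ⟨1, fun f => by simp⟩
    · obtain ⟨ℓ, hℓ, m, rfl⟩ : ∃ ℓ, ℓ.Prime ∧ ∃ m, n = m * ℓ :=
        ⟨n.minFac, Nat.minFac_prime (by omega), n / n.minFac,
          (Nat.div_mul_cancel (Nat.minFac_dvd n)).symm⟩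
      have hm : 0 < m := Nat.pos_of_ne_zero (by rintro rfl; simp at hn)
      obtain ⟨t₁, ht₁⟩ := ih m (lt_mul_of_one_lt_right hm hℓ.one_lt)
      by_cases hℓN : ℓ ∣ N
      · refine ⟨t₁ * heckeAlgebra.U hℓ hℓN (Set.notMem_empty _), fun f => ?_⟩
        rw [MulMemClass.coe_mul, Module.End.mul_apply, heckeAlgebra.coe_U, ht₁,
          qCoeff_heckeULin]
      · by_cases hdvd : ℓ ∣ m
        · obtain ⟨t₂, ht₂⟩ := ih (m / ℓ)
            (lt_of_le_of_lt (Nat.div_le_self m ℓ) (lt_mul_of_one_lt_right hm hℓ.one_lt))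
          refine ⟨t₁ * heckeAlgebra.T hℓ hℓN (Set.notMem_empty _) - (ℓ : ℤ) • t₂, fun f => ?_⟩
          rw [AddSubgroupClass.coe_sub, LinearMap.sub_apply, qCoeff_sub, MulMemClass.coe_mul,
            Module.End.mul_apply, heckeAlgebra.coe_T, ht₁, qCoeff_heckeTLin_two, if_pos hdvd,
            SetLike.val_smul, LinearMap.smul_apply, qCoeff_zsmul, ht₂]
          push_cast
          ring
        · refine ⟨t₁ * heckeAlgebra.T hℓ hℓN (Set.notMem_empty _), fun f => ?_⟩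
          rw [MulMemClass.coe_mul, Module.End.mul_apply, heckeAlgebra.coe_T, ht₁,
            qCoeff_heckeTLin_two, if_neg hdvd, add_zero]

variable (N) in
/-- The Hecke operator `T_n` in the full weight-two Hecke algebra (`T_0 = 0`). -/
def heckeTn (n : ℕ) : heckeAlgebra N 2 ∅ := (exists_heckeTn (N := N) n).choose

theorem qCoeff_one_heckeTn (n : ℕ) (f : CuspForm (Gamma0 N) 2) :
    qCoeff ⇑((heckeTn N n : Module.End ℂ (CuspForm (Gamma0 N) 2)) f) 1 = qCoeff ⇑f n :=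
  (exists_heckeTn (N := N) n).choose_spec f

section OfEigenvector

variable {χ : heckeAlgebra N 2 ∅ →+* ℂ} {v : CuspForm (Gamma0 N) 2}

theorem IsEigenvector.qCoeff_eq (hv : IsEigenvector χ v) (n : ℕ) :
    qCoeff ⇑v n = χ (heckeTn N n) * qCoeff ⇑v 1 := by
  rw [← qCoeff_one_heckeTn n v, hv, qCoeff_smul]

theorem IsEigenvector.qCoeff_one_ne_zero (hv : IsEigenvector χ v) (h0 : v ≠ 0) :
    qCoeff ⇑v 1 ≠ 0 :=
  fun h => h0 (eq_zero_of_qCoeff v fun n => by rw [hv.qCoeff_eq n, h, mul_zero])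

theorem IsEigenvector.qCoeff_T (hv : IsEigenvector χ v) (h1 : qCoeff ⇑v 1 = 1) {ℓ : ℕ}
    (hℓ : ℓ.Prime) (hℓN : ¬ ℓ ∣ N) :
    χ (heckeAlgebra.T hℓ hℓN (Set.notMem_empty _)) = qCoeff ⇑v ℓ := by
  have h := qCoeff_heckeTLin_two hℓ hℓN v 1
  rw [← heckeAlgebra.coe_T (S := ∅) hℓ hℓN (Set.notMem_empty _), hv, qCoeff_smul, h1, mul_one,
    if_neg (fun hd => hℓ.ne_one (Nat.dvd_one.1 hd)), add_zero, one_mul] at h
  exact h

theorem IsEigenvector.qCoeff_U (hv : IsEigenvector χ v) (h1 : qCoeff ⇑v 1 = 1) {q : ℕ}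
    (hq : q.Prime) (hqN : q ∣ N) :
    χ (heckeAlgebra.U hq hqN (Set.notMem_empty _)) = qCoeff ⇑v q := by
  have h := qCoeff_heckeULin (k := 2) hqN v 1
  rw [← heckeAlgebra.coe_U (S := ∅) hq hqN (Set.notMem_empty _), hv, qCoeff_smul, h1, mul_one,
    one_mul] at h
  exact h

/-- The Hecke recursion, in both cases. -/
theorem IsEigenvector.qCoeff_rec (hv : IsEigenvector χ v) (h1 : qCoeff ⇑v 1 = 1) {ℓ : ℕ}
    (hℓ : ℓ.Prime) (n : ℕ) :
    qCoeff ⇑v (n * ℓ) + (if ℓ ∣ N then 0 else if ℓ ∣ n then (ℓ : ℂ) * qCoeff ⇑v (n / ℓ) else 0) =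
      qCoeff ⇑v ℓ * qCoeff ⇑v n := by
  by_cases hℓN : ℓ ∣ N
  · rw [if_pos hℓN, add_zero, ← qCoeff_heckeULin hℓN v n,
      ← heckeAlgebra.coe_U (S := ∅) hℓ hℓN (Set.notMem_empty _), hv, qCoeff_smul,
      hv.qCoeff_U h1 hℓ hℓN]
  · rw [if_neg hℓN, ← qCoeff_heckeTLin_two hℓ hℓN v n,
      ← heckeAlgebra.coe_T (S := ∅) hℓ hℓN (Set.notMem_empty _), hv, qCoeff_smul,
      hv.qCoeff_T h1 hℓ hℓN]

theorem IsEigenvector.qCoeff_mul (hv : IsEigenvector χ v) (h1 : qCoeff ⇑v 1 = 1) (m n : ℕ)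
    (hmn : m.Coprime n) : qCoeff ⇑v (m * n) = qCoeff ⇑v m * qCoeff ⇑v n := by
  induction m using Nat.strong_induction_on with
  | _ m ih =>
    rcases lt_or_ge m 2 with hm | hm
    · interval_cases m
      · simp [qCoeff_zero_index]
      · simp [h1]
    · obtain ⟨ℓ, hℓ, a, rfl⟩ : ∃ ℓ, ℓ.Prime ∧ ∃ a, m = a * ℓ :=
        ⟨m.minFac, Nat.minFac_prime (by omega), m / m.minFac,
          (Nat.div_mul_cancel (Nat.minFac_dvd m)).symm⟩
      have ha : 0 < a := Nat.pos_of_ne_zero (by rintro rfl; simp at hm)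
      have hℓn : ¬ ℓ ∣ n := fun h =>
        hℓ.ne_one (Nat.eq_one_of_dvd_coprimes hmn (dvd_mul_left ℓ a) h)
      have hlt : a < a * ℓ := lt_mul_of_one_lt_right ha hℓ.one_lt
      have e1 := hv.qCoeff_rec h1 hℓ (a * n)
      have e2 := hv.qCoeff_rec h1 hℓ a
      rw [show a * ℓ * n = a * n * ℓ by ring]
      have han : a.Coprime n := hmn.coprime_dvd_left (dvd_mul_right a ℓ)
      rw [ih a hlt han] at e1
      by_cases hd : ℓ ∣ N
      · rw [if_pos hd, add_zero] at e1 e2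
        rw [e1, e2]; ring
      · rw [if_neg hd] at e1 e2
        by_cases hda : ℓ ∣ a
        · rw [if_pos (hda.mul_right n), Nat.mul_div_right_comm hda,
            ih (a / ℓ) (lt_of_le_of_lt (Nat.div_le_self a ℓ) hlt)
              (han.coprime_dvd_left (Nat.div_dvd_of_dvd hda))] at e1
          rw [if_pos hda] at e2
          linear_combination e1 - qCoeff ⇑v n * e2
        · rw [if_neg (fun h => (hℓ.dvd_mul.1 h).elim hda hℓn), add_zero] at e1
          rw [if_neg hda, add_zero] at e2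
          rw [e1, e2]; ring

/-- An eigenvector of the full Hecke algebra with `a₁ = 1` is a normalised eigenform. -/
theorem IsEigenvector.isNormalizedEigenform (hv : IsEigenvector χ v) (h1 : qCoeff ⇑v 1 = 1) :
    v.IsNormalizedEigenform where
  qCoeff_one := h1
  qCoeff_mul_of_coprime := hv.qCoeff_mul h1
  qCoeff_prime_pow_of_not_dvd p r hp hpN := by
    have e := hv.qCoeff_rec h1 hp (p ^ (r + 1))
    rw [if_neg hpN, if_pos (dvd_pow_self p (Nat.succ_ne_zero r)), ← pow_succ, pow_succ p r,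
      Nat.mul_div_cancel _ hp.pos, ← pow_succ p r] at e
    linear_combination e
  qCoeff_prime_pow_of_dvd p r hp hpN := by
    have e := hv.qCoeff_rec h1 hp (p ^ (r + 1))
    rw [if_pos hpN, add_zero, ← pow_succ] at e
    linear_combination e

/-- Normalising a non-zero eigenvector gives a normalised eigenform with the same character. -/
theorem IsEigenvector.exists_normalizedEigenform (hv : IsEigenvector χ v) (h0 : v ≠ 0) :
    ∃ g : CuspForm (Gamma0 N) 2, g.IsNormalizedEigenform ∧ IsEigenvector χ g ∧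
      ∀ n, qCoeff ⇑g n = χ (heckeTn N n) := by
  set g := (qCoeff ⇑v 1)⁻¹ • v with hg
  have hgv : IsEigenvector χ g := fun t => by rw [hg, map_smul, hv t, smul_comm]
  have h1 : qCoeff ⇑g 1 = 1 := by
    rw [hg, qCoeff_smul, inv_mul_cancel₀ (hv.qCoeff_one_ne_zero h0)]
  exact ⟨g, hgv.isNormalizedEigenform h1, hgv, fun n => by rw [hgv.qCoeff_eq n, h1, mul_one]⟩

end OfEigenvector

section OfEigenform

variable {f : CuspForm (Gamma0 N) 2}

omit [NeZero N] in
theorem eigenform_rec (hf : f.IsNormalizedEigenform) {ℓ : ℕ} (hℓ : ℓ.Prime) (n : ℕ) :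
    qCoeff ⇑f (n * ℓ) + (if ℓ ∣ N then 0 else if ℓ ∣ n then (ℓ : ℂ) * qCoeff ⇑f (n / ℓ) else 0) =
      qCoeff ⇑f ℓ * qCoeff ⇑f n := by
  rcases eq_or_ne n 0 with rfl | hn
  · simp [qCoeff_zero_index]
  obtain ⟨r, a, hla, rfl⟩ : ∃ r a, ¬ ℓ ∣ a ∧ n = ℓ ^ r * a :=
    ⟨n.factorization ℓ, n / ℓ ^ n.factorization ℓ, Nat.not_dvd_ordCompl hℓ hn,
      (Nat.ordProj_mul_ordCompl_eq_self n ℓ).symm⟩
  have hco : ∀ i : ℕ, (ℓ ^ i).Coprime a := fun i =>
    Nat.Coprime.pow_left i ((Nat.Prime.coprime_iff_not_dvd hℓ).2 hla)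
  have hmul : ∀ i : ℕ, qCoeff ⇑f (ℓ ^ i * a) = qCoeff ⇑f (ℓ ^ i) * qCoeff ⇑f a :=
    fun i => hf.qCoeff_mul_of_coprime _ _ (hco i)
  rw [show ℓ ^ r * a * ℓ = ℓ ^ (r + 1) * a by ring, hmul, hmul]
  rcases r with _ | r
  · rw [pow_zero, one_mul, if_neg hla, ite_self, add_zero, zero_add, pow_one, hf.qCoeff_one]
    ring
  · by_cases hd : ℓ ∣ N
    · rw [if_pos hd, hf.qCoeff_prime_pow_of_dvd ℓ r hℓ hd]
      ring
    · rw [if_neg hd, if_pos (Dvd.dvd.mul_right (dvd_pow_self ℓ (Nat.succ_ne_zero r)) a),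
        show ℓ ^ (r + 1) * a / ℓ = ℓ ^ r * a by
          rw [show ℓ ^ (r + 1) * a = ℓ ^ r * a * ℓ by ring, Nat.mul_div_cancel _ hℓ.pos],
        hf.qCoeff_prime_pow_of_not_dvd ℓ r hℓ hd, hmul]
      ring

omit [NeZero N] in
theorem heckeTLin_eigenform (hf : f.IsNormalizedEigenform) {ℓ : ℕ} (hℓ : ℓ.Prime)
    (hℓN : ¬ ℓ ∣ N) : CuspForm.heckeTLin 2 hℓ hℓN f = qCoeff ⇑f ℓ • f :=
  ext_qCoeff fun n => by
    rw [qCoeff_heckeTLin_two, qCoeff_smul, ← eigenform_rec hf hℓ n, if_neg hℓN]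

theorem heckeULin_eigenform (hf : f.IsNormalizedEigenform) {q : ℕ} (hq : q.Prime)
    (hqN : q ∣ N) : CuspForm.heckeULin 2 hqN f = qCoeff ⇑f q • f :=
  ext_qCoeff fun n => by
    rw [qCoeff_heckeULin, qCoeff_smul, ← eigenform_rec hf hq n, if_pos hqN, add_zero]

theorem eigenform_apply (hf : f.IsNormalizedEigenform) {S : Set ℕ} (t : heckeAlgebra N 2 S) :
    (t : Module.End ℂ (CuspForm (Gamma0 N) 2)) f =
      qCoeff ⇑((t : Module.End ℂ (CuspForm (Gamma0 N) 2)) f) 1 • f := by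
  suffices ∀ u ∈ heckeAlgebra N 2 S, ∃ c : ℂ, u f = c • f by
    obtain ⟨c, hc⟩ := this _ t.2
    conv_rhs => rw [hc, qCoeff_smul, hf.qCoeff_one, mul_one]
    exact hc
  intro u hu
  induction hu using Algebra.adjoin_induction with
  | mem x hx =>
    rcases hx with ⟨ℓ, hℓ, hℓN, -, rfl⟩ | ⟨q, hqN, hq, -, rfl⟩
    · exact ⟨_, heckeTLin_eigenform hf hℓ hℓN⟩
    · exact ⟨_, heckeULin_eigenform hf hq hqN⟩
  | algebraMap r =>
    exact ⟨(r : ℂ), by rw [Algebra.algebraMap_eq_smul_one, LinearMap.smul_apply,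
      Module.End.one_apply, Int.cast_smul_eq_zsmul]⟩
  | add x y _ _ hx hy =>
    obtain ⟨a, ha⟩ := hx
    obtain ⟨b, hb⟩ := hy
    exact ⟨a + b, by rw [LinearMap.add_apply, ha, hb, add_smul]⟩
  | mul x y _ _ hx hy =>
    obtain ⟨a, ha⟩ := hx
    obtain ⟨b, hb⟩ := hy
    exact ⟨a * b, by rw [Module.End.mul_apply, hb, map_smul, ha, smul_smul, mul_comm]⟩

/-- The character `t ↦ a₁(t f)` of the Hecke algebra attached to a normalised eigenform. -/
def eigenCharacter (hf : f.IsNormalizedEigenform) (S : Set ℕ) :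
    heckeAlgebra N 2 S →+* ℂ where
  toFun t := qCoeff ⇑((t : Module.End ℂ (CuspForm (Gamma0 N) 2)) f) 1
  map_one' := by simp [hf.qCoeff_one]
  map_mul' s t := by
    rw [MulMemClass.coe_mul, Module.End.mul_apply]
    conv_lhs => rw [eigenform_apply hf t, map_smul, qCoeff_smul]
    ring
  map_zero' := by simp
  map_add' s t := by rw [AddMemClass.coe_add, LinearMap.add_apply, qCoeff_add]

theorem eigenCharacter_isEigenvector (hf : f.IsNormalizedEigenform) (S : Set ℕ) :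
    IsEigenvector (eigenCharacter hf S) f :=
  eigenform_apply hf

theorem eigenCharacter_T (hf : f.IsNormalizedEigenform) {S : Set ℕ} {ℓ : ℕ} (hℓ : ℓ.Prime)
    (hℓN : ¬ ℓ ∣ N) (hℓS : ℓ ∉ S) :
    eigenCharacter hf S (heckeAlgebra.T hℓ hℓN hℓS) = qCoeff ⇑f ℓ := by
  show qCoeff ⇑(CuspForm.heckeTLin 2 hℓ hℓN f) 1 = qCoeff ⇑f ℓ
  rw [heckeTLin_eigenform hf hℓ hℓN, qCoeff_smul, hf.qCoeff_one, mul_one]

theorem eigenCharacter_U (hf : f.IsNormalizedEigenform) {S : Set ℕ} {q : ℕ} (hq : q.Prime)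
    (hqN : q ∣ N) (hqS : q ∉ S) :
    eigenCharacter hf S (heckeAlgebra.U hq hqN hqS) = qCoeff ⇑f q := by
  show qCoeff ⇑(CuspForm.heckeULin 2 hqN f) 1 = qCoeff ⇑f q
  rw [heckeULin_eigenform hf hq hqN, qCoeff_smul, hf.qCoeff_one, mul_one]

theorem eigenCharacter_heckeTn (hf : f.IsNormalizedEigenform) (n : ℕ) :
    eigenCharacter hf ∅ (heckeTn N n) = qCoeff ⇑f n :=
  qCoeff_one_heckeTn n f

end OfEigenform

end Fermat.Agent.Hecke

end
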