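import Fermat.Agent.Hecke.QCoeff
import Fermat.Prelude.Thm_CuspForm_mem_intLattice_of_mem_heckeAlgebra
import Fermat.Prelude.Thm_CuspForm_intLattice_fg
import Mathlib.RingTheory.TensorProduct.Free

/-!
# The Hecke algebra of an integral structure

Consequences of an integral structure on cusp forms for the Hecke algebra `T`: it is finite free
over ℤ, `ℂ ⊗ T` acts faithfully, every ring homomorphism `T → ℂ` occurs on an eigenvector, and
every prime of `T` contains the kernel of such a homomorphism.

Main results: `exists_eigenvector` and `exists_ringHom_ker_le`.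
-/

set_option autoImplicit false

noncomputable section

open CongruenceSubgroup ModularFormClass CuspForm
open scoped TensorProduct

namespace Fermat.Agent.Hecke

/-- ℤ-independent integer vectors stay independent over ℂ. -/
theorem linearIndependent_of_int_vectors {J I V : Type*} [AddCommGroup V] [Module ℂ V]
    (Φ : V →ₗ[ℂ] (I → ℂ)) (v : J → V) (w : J → I → ℤ)
    (hvw : ∀ j i, Φ (v j) i = (w j i : ℂ)) (hw : LinearIndependent ℤ w) :
    LinearIndependent ℂ v := by
  have hq : LinearIndependent ℚ (fun j i => (w j i : ℚ)) := by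
    rw [← LinearIndependent.iff_fractionRing (R := ℤ) (K := ℚ)]
    refine hw.map' (M' := I → ℚ)
      { toFun := fun x i => (x i : ℚ)
        map_add' := fun x y => by ext i; simp
        map_smul' := fun c x => by ext i; simp } ?_
    exact LinearMap.ker_eq_bot.2 fun x y h => funext fun i => Int.cast_injective (congrFun h i)
  rw [linearIndependent_iff'] at hq ⊢
  intro s c hc j hj
  rw [← Module.forall_dual_apply_eq_zero_iff ℚ]
  intro φ
  refine hq s (fun j => φ (c j)) (funext fun i => ?_) j hj
  have h1 : ∑ j ∈ s, ((w j i : ℚ) • c j) = 0 := by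
    have h2 : Φ (∑ j ∈ s, c j • v j) i = 0 := by rw [hc, map_zero, Pi.zero_apply]
    rw [map_sum, Finset.sum_apply] at h2
    refine (Finset.sum_congr rfl fun j _ => ?_).trans h2
    rw [map_smul, Pi.smul_apply, hvw, smul_eq_mul, Rat.smul_def, Rat.cast_intCast, mul_comm]
  have h3 := congrArg φ h1
  rw [map_sum, map_zero] at h3
  simpa [Finset.sum_apply, mul_comm, smul_eq_mul] using h3

variable {N : ℕ} [NeZero N] {k : ℤ} {S : Set ℕ}

/-- Restriction of the Hecke algebra to the integral lattice, as a linear map. -/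
def toLatticeEnd (hk : 1 ≤ k) :
    heckeAlgebra N k S →ₗ[ℤ] Module.End ℤ ↥(intLattice N k) where
  toFun t := LinearMap.restrict
      (LinearMap.restrictScalars ℤ (t : Module.End ℂ (CuspForm (Gamma0 N) k)))
    fun _ hf => CuspForm.mem_intLattice_of_mem_heckeAlgebra hk t.2 hf
  map_add' _ _ := LinearMap.ext fun _ => Subtype.ext rfl
  map_smul' _ _ := LinearMap.ext fun _ => Subtype.ext rfl

theorem toLatticeEnd_injective (hk : 1 ≤ k) (hint : HasIntegralStructure N k) :
    Function.Injective (toLatticeEnd (N := N) (S := S) hk) := fun _ _ h =>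
  Subtype.ext (LinearMap.ext_on hint fun f hf =>
    congrArg Subtype.val (LinearMap.congr_fun h ⟨f, hf⟩))

/-- Under an integral structure the Hecke algebra is a finitely generated ℤ-module. -/
theorem moduleFinite_of_hasIntegralStructure (hk : 1 ≤ k) (hint : HasIntegralStructure N k) :
    Module.Finite ℤ (heckeAlgebra N k S) := by
  have : Module.Finite ℤ ↥(intLattice N k) := Module.Finite.iff_fg.mpr (intLattice_fg N k)
  have : IsAddTorsionFree (CuspForm (Gamma0 N) k) := .of_isTorsionFree ℂ _
  have : Module.Free ℤ ↥(intLattice N k) := Module.free_of_finite_type_torsion_free'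
  exact Module.Finite.of_injective (toLatticeEnd hk) (toLatticeEnd_injective hk hint)

theorem moduleFree_of_hasIntegralStructure (hk : 1 ≤ k) (hint : HasIntegralStructure N k) :
    Module.Free ℤ (heckeAlgebra N k S) := by
  have := moduleFinite_of_hasIntegralStructure (S := S) hk hint
  exact Module.free_of_finite_type_torsion_free'

theorem isIntegral_of_hasIntegralStructure (hk : 1 ≤ k) (hint : HasIntegralStructure N k)
    {R : Type*} [CommRing R] (χ : heckeAlgebra N k S →+* R) (t : heckeAlgebra N k S) :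
    IsIntegral ℤ (χ t) :=
  haveI := moduleFinite_of_hasIntegralStructure (S := S) hk hint
  (Algebra.IsIntegral.isIntegral t).map χ.toIntAlgHom

variable (N k S) in
/-- The action of `ℂ ⊗ T` on cusp forms. -/
def complexAction : (ℂ ⊗[ℤ] heckeAlgebra N k S) →ₐ[ℂ] Module.End ℂ (CuspForm (Gamma0 N) k) :=
  Algebra.TensorProduct.lift (Algebra.ofId ℂ _) (heckeAlgebra N k S).val
    fun c t => Algebra.commute_algebraMap_left c (t : Module.End ℂ (CuspForm (Gamma0 N) k))

theorem complexAction_tmul (c : ℂ) (t : heckeAlgebra N k S) (f : CuspForm (Gamma0 N) k) :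
    complexAction N k S (c ⊗ₜ t) f = c • (t : Module.End ℂ (CuspForm (Gamma0 N) k)) f := by
  show (algebraMap ℂ (Module.End ℂ (CuspForm (Gamma0 N) k)) c *
    (t : Module.End ℂ (CuspForm (Gamma0 N) k))) f = _
  rw [Module.End.mul_apply, Module.algebraMap_end_apply]

/-- `ℂ ⊗ T → End_ℂ S_k` is injective. -/
theorem complexAction_injective (hk : 1 ≤ k) (hint : HasIntegralStructure N k) :
    Function.Injective (complexAction N k S) := by
  have := moduleFinite_of_hasIntegralStructure (S := S) hk hint
  have := moduleFree_of_hasIntegralStructure (S := S) hk hint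
  set b := Module.Free.chooseBasis ℤ (heckeAlgebra N k S) with hb
  set B := Algebra.TensorProduct.basis ℂ b with hB
  let Φ : Module.End ℂ (CuspForm (Gamma0 N) k) →ₗ[ℂ]
      (↥(intLattice N k) × ℕ → ℂ) :=
    LinearMap.pi fun p => (qCoeffLin N k p.2).comp (LinearMap.applyₗ p.1.1)
  have hi : ∀ (t : heckeAlgebra N k S) (p : ↥(intLattice N k) × ℕ),
      ∃ m : ℤ, Φ (t : Module.End ℂ _) p = (m : ℂ) := fun t p =>
    (mem_intLattice_iff _).1 (CuspForm.mem_intLattice_of_mem_heckeAlgebra hk t.2 p.1.2) p.2
  choose w hw using hi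
  let W : heckeAlgebra N k S →ₗ[ℤ] (↥(intLattice N k) × ℕ → ℤ) :=
    { toFun := fun t p => w t p
      map_add' := fun s t => funext fun p => Int.cast_injective (α := ℂ) (by
        simp only [Pi.add_apply, Int.cast_add, ← hw]
        simp [map_add])
      map_smul' := fun c t => funext fun p => Int.cast_injective (α := ℂ) (by
        simp only [Pi.smul_apply, smul_eq_mul, Int.cast_mul, ← hw, RingHom.id_apply]
        rw [SetLike.val_smul, map_zsmul, Pi.smul_apply, zsmul_eq_mul]) }
  have hW : LinearMap.ker W = ⊥ := by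
    rw [LinearMap.ker_eq_bot']
    intro t ht
    refine Subtype.ext (LinearMap.ext_on hint fun f hf => eq_zero_of_qCoeff _ fun n => ?_)
    have := hw t (⟨f, hf⟩, n)
    rw [show w t (⟨f, hf⟩, n) = 0 from congrFun ht _, Int.cast_zero] at this
    simpa [Φ] using this
  have hli : LinearIndependent ℂ fun j => ((b j : heckeAlgebra N k S) : Module.End ℂ _) :=
    linearIndependent_of_int_vectors Φ _ _ (fun j p => hw (b j) p)
      (b.linearIndependent.map' W hW)
  have hBb : ∀ j, complexAction N k S (B j) = (b j : Module.End ℂ (CuspForm (Gamma0 N) k)) :=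
    fun j => LinearMap.ext fun f => by
      rw [hB, Algebra.TensorProduct.basis_apply, complexAction_tmul, one_smul]
  rw [injective_iff_map_eq_zero]
  intro x hx
  rw [← B.sum_repr x, map_sum] at hx
  simp only [map_smul, hBb] at hx
  have h0 := Fintype.linearIndependent_iff.1 hli _ hx
  rw [← B.sum_repr x]
  exact Finset.sum_eq_zero fun j _ => by rw [h0 j, zero_smul]

/-- Every ring homomorphism `T → ℂ` is the character of a non-zero eigenvector. -/
theorem exists_eigenvector (hk : 1 ≤ k) (hint : HasIntegralStructure N k)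
    (χ : heckeAlgebra N k S →+* ℂ) :
    ∃ v : CuspForm (Gamma0 N) k, v ≠ 0 ∧ ∀ t : heckeAlgebra N k S,
      (t : Module.End ℂ (CuspForm (Gamma0 N) k)) v = χ t • v := by
  have := moduleFinite_of_hasIntegralStructure (S := S) hk hint
  have : IsArtinianRing (ℂ ⊗[ℤ] heckeAlgebra N k S) := IsArtinianRing.of_finite ℂ _
  have : IsNoetherianRing (ℂ ⊗[ℤ] heckeAlgebra N k S) := IsNoetherianRing.of_finite ℂ _
  let χ' : (ℂ ⊗[ℤ] heckeAlgebra N k S) →ₐ[ℂ] ℂ :=
    Algebra.TensorProduct.lift (AlgHom.id ℂ ℂ) χ.toIntAlgHom fun _ _ => Commute.all _ _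
  set M := RingHom.ker χ' with hM
  have : M.IsPrime := RingHom.ker_isPrime _
  have hass : M ∈ associatedPrimes (ℂ ⊗[ℤ] heckeAlgebra N k S) (ℂ ⊗[ℤ] heckeAlgebra N k S) :=
    Module.associatedPrimes.minimalPrimes_annihilator_subset_associatedPrimes _ _
      ⟨⟨inferInstance, by rw [Module.annihilator_eq_bot.2 inferInstance]; exact bot_le⟩,
        fun q hq hle => by
          have := hq.1
          exact ((IsArtinianRing.isMaximal_of_isPrime q).eq_of_le
            (Ideal.IsPrime.ne_top inferInstance) hle).ge⟩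
  obtain ⟨-, x, hx⟩ := isAssociatedPrime_iff.1 hass
  have hx0 : complexAction N k S x ≠ 0 := by
    rw [Ne, map_eq_zero_iff _ (complexAction_injective (S := S) hk hint)]
    rintro rfl
    exact Ideal.IsPrime.ne_top inferInstance (hx.trans (by simp))
  obtain ⟨f, hf⟩ : ∃ f, complexAction N k S x f ≠ 0 := by
    by_contra h
    exact hx0 (LinearMap.ext fun f => not_not.1 (not_exists.1 h f))
  refine ⟨_, hf, fun t => ?_⟩
  set m := (1 : ℂ) ⊗ₜ[ℤ] t - χ t ⊗ₜ[ℤ] (1 : heckeAlgebra N k S) with hm
  have hmM : m ∈ M := by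
    rw [hM, RingHom.mem_ker, hm, map_sub]
    simp only [χ', Algebra.TensorProduct.lift_tmul, map_one]
    simp
  rw [hx, Submodule.mem_colon_singleton, Submodule.mem_bot, smul_eq_mul] at hmM
  have h := congrArg (fun y => complexAction N k S y f) hmM
  simp only [map_mul, map_zero, Module.End.mul_apply, LinearMap.zero_apply, hm, map_sub,
    LinearMap.sub_apply, complexAction_tmul, one_smul, OneMemClass.coe_one,
    Module.End.one_apply] at h
  exact sub_eq_zero.1 h

/-- Every prime of the Hecke algebra contains the kernel of a homomorphism to ℂ. -/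
theorem exists_ringHom_ker_le (hk : 1 ≤ k) (hint : HasIntegralStructure N k)
    (P : Ideal (heckeAlgebra N k S)) [P.IsPrime] :
    ∃ χ : heckeAlgebra N k S →+* ℂ, RingHom.ker χ ≤ P := by
  have := moduleFinite_of_hasIntegralStructure (S := S) hk hint
  have : IsArtinianRing (ℂ ⊗[ℤ] heckeAlgebra N k S) := IsArtinianRing.of_finite ℂ _
  have : IsNoetherianRing (ℂ ⊗[ℤ] heckeAlgebra N k S) := IsNoetherianRing.of_finite ℂ _
  let j : heckeAlgebra N k S →+* (ℂ ⊗[ℤ] heckeAlgebra N k S) :=
    (Algebra.TensorProduct.includeRight : heckeAlgebra N k S →ₐ[ℤ] _).toRingHom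
  have hj : Function.Injective j := fun s t h => Subtype.ext (LinearMap.ext fun f => by
    have h' := congrArg (fun y => complexAction N k S y f) h
    simpa [j, complexAction_tmul] using h')
  obtain ⟨q, hq, hqP⟩ := Ideal.exists_minimalPrimes_le (J := P) (I := ⊥) bot_le
  obtain ⟨M, hM, hMq⟩ := Ideal.exists_comap_eq_of_mem_minimalPrimes_of_injective hj q hq
  have : M.IsMaximal := IsArtinianRing.isMaximal_of_isPrime M
  let := Ideal.Quotient.field M
  let e : ℂ ≃ₐ[ℂ] (ℂ ⊗[ℤ] heckeAlgebra N k S) ⧸ M :=
    AlgEquiv.ofBijective (Algebra.ofId ℂ _) IsAlgClosed.algebraMap_bijective_of_isIntegral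
  refine ⟨e.symm.toRingEquiv.toRingHom.comp ((Ideal.Quotient.mk M).comp j), fun t ht => hqP ?_⟩
  rw [← hMq, Ideal.mem_comap, ← Ideal.Quotient.eq_zero_iff_mem]
  rw [RingHom.mem_ker, RingHom.comp_apply, RingHom.comp_apply] at ht
  exact e.symm.toRingEquiv.injective (ht.trans (map_zero _).symm)

end Fermat.Agent.Hecke

end
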