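import Fermat.Prelude.Def_CuspForm_HeckeAlgebra
import Fermat.Prelude.Def_CuspForm_IntegralStructure
import Fermat.Prelude.Thm_ModularFormClass_qCoeff_heckeT
import Fermat.Prelude.Thm_ModularFormClass_qCoeff_heckeU
import Fermat.Prelude.Thm_CongruenceSubgroup_one_mem_strictPeriods_Gamma0

/-!
# q-coefficients and Hecke operators

q-coefficients of cusp forms on Γ₀(N): linearity, injectivity, and the effect of the Hecke
operators `heckeTLin`, `heckeULin`.

Main results: `ext_qCoeff` and `mem_intLattice_iff`.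
-/

set_option autoImplicit false

noncomputable section

open CongruenceSubgroup ModularFormClass ModularForm
open scoped MatrixGroups

namespace Fermat.Agent.Hecke

variable {N : ℕ} {k : ℤ}

theorem qCoeff_add (f g : CuspForm (Gamma0 N) k) (n : ℕ) :
    qCoeff ⇑(f + g) n = qCoeff ⇑f n + qCoeff ⇑g n := by
  simp only [qCoeff, FunLike.coe_add]
  rw [ModularForm.qExpansion_add one_pos (one_mem_strictPeriods_Gamma0 N) f g, map_add]

theorem qCoeff_smul (c : ℂ) (f : CuspForm (Gamma0 N) k) (n : ℕ) :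
    qCoeff ⇑(c • f) n = c * qCoeff ⇑f n := by
  simp only [qCoeff, FunLike.coe_smul]
  rw [ModularForm.qExpansion_smul one_pos (one_mem_strictPeriods_Gamma0 N) c f]
  simp

theorem qCoeff_zero_form (n : ℕ) : qCoeff ⇑(0 : CuspForm (Gamma0 N) k) n = 0 := by
  simp [qCoeff, UpperHalfPlane.qExpansion_zero]

@[simp] theorem qCoeff_zero_fun (n : ℕ) : qCoeff (0 : UpperHalfPlane → ℂ) n = 0 := by
  simp [qCoeff, UpperHalfPlane.qExpansion_zero]

/-- The `n`-th q-coefficient as a linear functional. -/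
def qCoeffLin (N : ℕ) (k : ℤ) (n : ℕ) : CuspForm (Gamma0 N) k →ₗ[ℂ] ℂ where
  toFun f := qCoeff ⇑f n
  map_add' f g := qCoeff_add f g n
  map_smul' c f := qCoeff_smul c f n

@[simp] theorem qCoeffLin_apply (n : ℕ) (f : CuspForm (Gamma0 N) k) :
    qCoeffLin N k n f = qCoeff ⇑f n := rfl

theorem qCoeff_sub (f g : CuspForm (Gamma0 N) k) (n : ℕ) :
    qCoeff ⇑(f - g) n = qCoeff ⇑f n - qCoeff ⇑g n :=
  map_sub (qCoeffLin N k n) f g

theorem qCoeff_zsmul (c : ℤ) (f : CuspForm (Gamma0 N) k) (n : ℕ) :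
    qCoeff ⇑(c • f) n = (c : ℂ) * qCoeff ⇑f n := by
  rw [← Int.cast_smul_eq_zsmul ℂ c f, qCoeff_smul]

theorem qCoeff_zero_index (f : CuspForm (Gamma0 N) k) : qCoeff ⇑f 0 = 0 :=
  CuspFormClass.qExpansion_coeff_zero f one_pos (one_mem_strictPeriods_Gamma0 N)

theorem eq_zero_of_qCoeff (f : CuspForm (Gamma0 N) k)
    (h : ∀ n, qCoeff ⇑f n = 0) : f = 0 := by
  have h0 : UpperHalfPlane.qExpansion 1 (⇑f) = 0 := PowerSeries.ext fun n => by
    simpa [qCoeff] using h n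
  have : Fact (IsCusp OnePoint.infty
      (Subgroup.map (Matrix.SpecialLinearGroup.mapGL ℝ) (Gamma0 N))) :=
    ⟨Subgroup.isCusp_of_mem_strictPeriods one_pos (one_mem_strictPeriods_Gamma0 N)⟩
  have h1 : (⇑f : UpperHalfPlane → ℂ) = 0 :=
    (UpperHalfPlane.qExpansion_eq_zero_iff one_pos
      (SlashInvariantFormClass.periodic_comp_ofComplex f (one_mem_strictPeriods_Gamma0 N))
      (ModularFormClass.holo f) (ModularFormClass.bdd_at_infty f)).1 h0
  exact DFunLike.ext _ _ fun z => congrFun h1 z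

theorem ext_qCoeff {f g : CuspForm (Gamma0 N) k} (h : ∀ n, qCoeff ⇑f n = qCoeff ⇑g n) : f = g :=
  sub_eq_zero.1 (eq_zero_of_qCoeff _ fun n => by rw [qCoeff_sub, h n, sub_self])

/-- Membership in the integral lattice is integrality of all q-coefficients. -/
theorem mem_intLattice_iff (f : CuspForm (Gamma0 N) k) :
    f ∈ CuspForm.intLattice N k ↔ ∀ n : ℕ, ∃ m : ℤ, qCoeff ⇑f n = (m : ℂ) := by
  refine ⟨fun hf => ?_, fun hf => Submodule.subset_span hf⟩
  induction hf using Submodule.span_induction with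
  | mem x hx => exact hx
  | zero => exact fun n => ⟨0, by rw [qCoeff_zero_form]; simp⟩
  | add x y _ _ hx hy =>
    intro n
    obtain ⟨a, ha⟩ := hx n
    obtain ⟨b, hb⟩ := hy n
    exact ⟨a + b, by rw [qCoeff_add, ha, hb]; push_cast; ring⟩
  | smul c x _ hx =>
    intro n
    obtain ⟨a, ha⟩ := hx n
    exact ⟨c * a, by rw [qCoeff_zsmul, ha]; push_cast; ring⟩

theorem qCoeff_heckeTLin {ℓ : ℕ} (hℓ : ℓ.Prime) (hℓN : ¬ ℓ ∣ N) (f : CuspForm (Gamma0 N) k)
    (n : ℕ) :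
    qCoeff ⇑(CuspForm.heckeTLin k hℓ hℓN f) n =
      qCoeff ⇑f (n * ℓ) + (if ℓ ∣ n then (ℓ : ℂ) ^ (k - 1) * qCoeff ⇑f (n / ℓ) else 0) := by
  rw [CuspForm.coe_heckeTLin_apply]
  exact ModularFormClass.qCoeff_heckeT f (one_mem_strictPeriods_Gamma0 N) hℓ.ne_zero n

theorem qCoeff_heckeULin [NeZero N] {q : ℕ} (hqN : q ∣ N) (f : CuspForm (Gamma0 N) k) (n : ℕ) :
    qCoeff ⇑(CuspForm.heckeULin k hqN f) n = qCoeff ⇑f (n * q) := by
  rw [CuspForm.coe_heckeULin_apply]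
  refine ModularFormClass.qCoeff_heckeU f (one_mem_strictPeriods_Gamma0 N) ?_ n
  rintro rfl
  exact NeZero.ne N (zero_dvd_iff.1 hqN)

/-- Weight two: `q`-coefficients of `T_ℓ f`. -/
theorem qCoeff_heckeTLin_two {ℓ : ℕ} (hℓ : ℓ.Prime) (hℓN : ¬ ℓ ∣ N)
    (f : CuspForm (Gamma0 N) 2) (n : ℕ) :
    qCoeff ⇑(CuspForm.heckeTLin 2 hℓ hℓN f) n =
      qCoeff ⇑f (n * ℓ) + (if ℓ ∣ n then (ℓ : ℂ) * qCoeff ⇑f (n / ℓ) else 0) := by
  rw [qCoeff_heckeTLin hℓ hℓN f n]
  norm_num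

end Fermat.Agent.Hecke

end
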