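import Fermat.Agent.Hecke.Duality
import Fermat.Agent.Hecke.Lattice

/-!
# Deligne–Serre lifting

Deligne–Serre lifting: a system of eigenvalues modulo a maximal ideal, realised on an integral
form, lifts to a normalised eigenform.

Main results: `exists_eigenform_lift` and `exists_residual_character`.
-/

set_option autoImplicit false

noncomputable section

open CongruenceSubgroup ModularFormClass CuspForm

namespace Fermat.Agent.Hecke

variable {N : ℕ} [NeZero N]

/-- A homomorphism from the full Hecke algebra to a field of prime characteristic lifts to a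
normalised eigenform, modulo a maximal ideal of ℤ̄. -/
theorem exists_eigenform_lift (hint : HasIntegralStructure N 2) (P : Ideal (heckeAlgebra N 2 ∅))
    [P.IsMaximal] :
    ∃ (g : CuspForm (Gamma0 N) 2) (hg : g.IsNormalizedEigenform)
      (𝔪 : Ideal (integralClosure ℤ ℂ)), 𝔪.IsMaximal ∧
      ∀ t : heckeAlgebra N 2 ∅, ∃ c : integralClosure ℤ ℂ,
        (c : ℂ) = eigenCharacter hg ∅ t ∧ (c ∈ 𝔪 ↔ t ∈ P) := by
  obtain ⟨χ, hχ⟩ := exists_ringHom_ker_le one_le_two hint P
  obtain ⟨v, hv0, hv⟩ := exists_eigenvector one_le_two hint χ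
  obtain ⟨g, hg, hgv, hgc⟩ := IsEigenvector.exists_normalizedEigenform (χ := χ) hv hv0
  have hint' := isIntegral_of_hasIntegralStructure (S := ∅) one_le_two hint χ
  let φ : heckeAlgebra N 2 ∅ →+* integralClosure ℤ ℂ :=
    χ.codRestrict (integralClosure ℤ ℂ).toSubring hint'
  let : Algebra (heckeAlgebra N 2 ∅) (integralClosure ℤ ℂ) := φ.toAlgebra
  have : IsScalarTower ℤ (heckeAlgebra N 2 ∅) (integralClosure ℤ ℂ) :=
    IsScalarTower.of_algebraMap_eq' (RingHom.ext_int _ _)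
  have : Algebra.IsIntegral (heckeAlgebra N 2 ∅) (integralClosure ℤ ℂ) :=
    Algebra.IsIntegral.tower_top ℤ
  have hker : RingHom.ker (algebraMap (heckeAlgebra N 2 ∅) (integralClosure ℤ ℂ)) ≤ P :=
    fun t ht => hχ (congrArg Subtype.val ht)
  obtain ⟨𝔪, h𝔪, hcomap⟩ := Ideal.exists_ideal_over_maximal_of_isIntegral P hker
  refine ⟨g, hg, 𝔪, h𝔪, fun t => ⟨φ t, ?_, ?_⟩⟩
  · have h := hgv t
    show χ t = qCoeff ⇑((t : Module.End ℂ (CuspForm (Gamma0 N) 2)) g) 1
    rw [h, qCoeff_smul, hg.qCoeff_one, mul_one]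
  · rw [← hcomap, Ideal.mem_comap]
    rfl

omit [NeZero N] in
/-- Congruent forms differ by `m` times an integral form. -/
theorem exists_eq_smul_add_smul (m : ℕ) [NeZero m] (b : ℤ) {F H : CuspForm (Gamma0 N) 2}
    (h : ∀ n, ∃ v : ℤ, qCoeff ⇑H n = b * qCoeff ⇑F n + (m : ℂ) * v) :
    ∃ G ∈ intLattice N 2, H = (b : ℂ) • F + (m : ℂ) • G := by
  have hm0 : (m : ℂ) ≠ 0 := Nat.cast_ne_zero.2 (NeZero.ne m)
  choose v hv using h
  refine ⟨(m : ℂ)⁻¹ • (H - (b : ℂ) • F), (mem_intLattice_iff _).2 fun n => ⟨v n, ?_⟩, ?_⟩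
  · rw [qCoeff_smul, qCoeff_sub, qCoeff_smul, hv]
    field_simp
    ring
  · rw [smul_smul, mul_inv_cancel₀ hm0, one_smul, add_sub_cancel]

/-- The mod-`m` eigencharacter of an integral form which is an eigenform modulo `m`. -/
theorem exists_residual_character (m : ℕ) [NeZero m] (F : CuspForm (Gamma0 N) 2) {S : Set ℕ}
    (hF : F ∈ intLattice N 2) (h1 : ∃ u : ℤ, qCoeff ⇑F 1 = 1 + (m : ℂ) * u)
    (hgen : ∀ t ∈ heckeGenerators N 2 S, ∃ c : ℤ, ∀ n, ∃ u : ℤ,
      qCoeff ⇑(t F) n = c * qCoeff ⇑F n + (m : ℂ) * u) :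
    ∃ θ : heckeAlgebra N 2 S →+* ZMod m, ∀ t : heckeAlgebra N 2 S, ∀ n : ℕ, ∀ c e : ℤ,
      qCoeff ⇑((t : Module.End ℂ (CuspForm (Gamma0 N) 2)) F) n = c →
        qCoeff ⇑F n = e → (c : ZMod m) = θ t * e := by
  obtain ⟨u₁, hu₁⟩ := h1
  have key : ∀ u ∈ heckeAlgebra N 2 S, ∃ c : ℤ, ∀ n, ∃ v : ℤ,
      qCoeff ⇑(u F) n = c * qCoeff ⇑F n + (m : ℂ) * v := by
    intro u hu
    induction hu using Algebra.adjoin_induction with
    | mem x hx => exact hgen x hx
    | algebraMap r =>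
      exact ⟨r, fun n => ⟨0, by rw [Algebra.algebraMap_eq_smul_one, LinearMap.smul_apply,
        Module.End.one_apply, qCoeff_zsmul]; simp⟩⟩
    | add x y _ _ hx hy =>
      obtain ⟨a, ha⟩ := hx
      obtain ⟨b, hb⟩ := hy
      refine ⟨a + b, fun n => ?_⟩
      obtain ⟨v, hv⟩ := ha n
      obtain ⟨w, hw⟩ := hb n
      exact ⟨v + w, by rw [LinearMap.add_apply, qCoeff_add, hv, hw]; push_cast; ring⟩
    | mul x y hx' _ hx hy =>
      obtain ⟨a, ha⟩ := hx
      obtain ⟨b, hb⟩ := hy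
      obtain ⟨G, hGL, hy'⟩ := exists_eq_smul_add_smul m b hb
      have hxG := (mem_intLattice_iff _).1
        (CuspForm.mem_intLattice_of_mem_heckeAlgebra one_le_two hx' hGL)
      refine ⟨a * b, fun n => ?_⟩
      obtain ⟨w, hw⟩ := ha n
      obtain ⟨z, hz⟩ := hxG n
      refine ⟨b * w + z, ?_⟩
      rw [Module.End.mul_apply, hy', map_add, map_smul, map_smul, qCoeff_add, qCoeff_smul,
        qCoeff_smul, hw, hz]
      push_cast
      ring
  choose c hc using fun t : heckeAlgebra N 2 S => key t t.2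
  have huniq : ∀ (t : heckeAlgebra N 2 S) (d : ℤ),
      (∃ v : ℤ, qCoeff ⇑((t : Module.End ℂ (CuspForm (Gamma0 N) 2)) F) 1 = d + (m : ℂ) * v) →
        (c t : ZMod m) = d := by
    rintro t d ⟨v, hv⟩
    obtain ⟨w, hw⟩ := hc t 1
    rw [hv, hu₁] at hw
    have hz : c t = d + m * (v - w - c t * u₁) := Int.cast_injective (α := ℂ) (by
      push_cast; linear_combination -hw)
    rw [hz]
    simp
  have happ : ∀ t : heckeAlgebra N 2 S, ∀ n : ℕ, ∀ d e : ℤ,
      qCoeff ⇑((t : Module.End ℂ (CuspForm (Gamma0 N) 2)) F) n = d →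
        qCoeff ⇑F n = e → (d : ZMod m) = c t * e := by
    intro t n d e hd he
    obtain ⟨w, hw⟩ := hc t n
    rw [hd, he] at hw
    have hz : d = c t * e + m * w := Int.cast_injective (α := ℂ) (by push_cast; exact hw)
    rw [hz]
    simp
  refine ⟨{ toFun := fun t => (c t : ZMod m)
            map_one' := ?_
            map_mul' := fun s t => ?_
            map_zero' := ?_
            map_add' := fun s t => ?_ }, happ⟩
  · rw [huniq 1 1 ⟨u₁, by rw [OneMemClass.coe_one, Module.End.one_apply, hu₁]; simp⟩, Int.cast_one]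
  · obtain ⟨d, hd⟩ := (mem_intLattice_iff _).1
      (CuspForm.mem_intLattice_of_mem_heckeAlgebra one_le_two (s * t).2 hF) 1
    rw [huniq (s * t) d ⟨0, by rw [hd]; simp⟩]
    obtain ⟨G, hGL, hy'⟩ := exists_eq_smul_add_smul m (c t) (hc t)
    obtain ⟨z, hz⟩ := (mem_intLattice_iff _).1
      (CuspForm.mem_intLattice_of_mem_heckeAlgebra one_le_two s.2 hGL) 1
    obtain ⟨x, hx⟩ := hc s 1
    rw [MulMemClass.coe_mul, Module.End.mul_apply, hy', map_add, map_smul, map_smul, qCoeff_add,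
      qCoeff_smul, qCoeff_smul, hx, hz, hu₁] at hd
    have hzd : d = c s * c t + m * (c t * c s * u₁ + c t * x + z) := Int.cast_injective (α := ℂ)
      (by push_cast; linear_combination -hd)
    rw [hzd]
    simp
  · rw [huniq 0 0 ⟨0, by simp⟩, Int.cast_zero]
  · obtain ⟨x, hx⟩ := hc s 1
    obtain ⟨y, hy⟩ := hc t 1
    rw [huniq (s + t) (c s + c t) ⟨(c s + c t) * u₁ + x + y, by
      rw [AddMemClass.coe_add, LinearMap.add_apply, qCoeff_add, hx, hy, hu₁]; push_cast; ring⟩,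
      Int.cast_add]

end Fermat.Agent.Hecke

end
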